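import Mathlib

/-!
# S37 / (KRON-POLY), part B (helper2): the algebra of Kronecker's congruence

`h2kron_core`: let `k` be a field, `S` a commutative `k`-algebra, `t : S` transcendental over `k`,
`l ≥ 2` and `Ψ ∈ k[Y][X]` monic in `X` of degree `l + 1` with `Ψ(X = t^l, Y = t) = 0` and
`Ψ(X = t, Y = t^l) = 0`.  Then `Ψ = (X - Y^l) (X^l - Y)`.
-/

set_option autoImplicit false

open Polynomial

noncomputable section

namespace Fermat.Agent.S37x.Kron.H2

section core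

variable {k : Type*} [Field k] {S : Type*} [CommRing S] [Algebra k S]

/-- `Ψ(X = a, Y = b)` for `Ψ ∈ k[Y][X]` (outer variable `X ↦ a`, inner variable `Y ↦ b`). -/
def h2kronEv (Ψ : (k[X])[X]) (a b : S) : S :=
  Ψ.eval₂ (Polynomial.aeval b : k[X] →ₐ[k] S).toRingHom a

lemma h2kronEv_mul (Ψ₁ Ψ₂ : (k[X])[X]) (a b : S) :
    h2kronEv (Ψ₁ * Ψ₂) a b = h2kronEv Ψ₁ a b * h2kronEv Ψ₂ a b := by
  unfold h2kronEv
  exact Polynomial.eval₂_mul _ _

lemma h2kronEv_add (Ψ₁ Ψ₂ : (k[X])[X]) (a b : S) :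
    h2kronEv (Ψ₁ + Ψ₂) a b = h2kronEv Ψ₁ a b + h2kronEv Ψ₂ a b := by
  unfold h2kronEv
  exact Polynomial.eval₂_add _ _

lemma h2kronEv_sub (Ψ₁ Ψ₂ : (k[X])[X]) (a b : S) :
    h2kronEv (Ψ₁ - Ψ₂) a b = h2kronEv Ψ₁ a b - h2kronEv Ψ₂ a b := by
  unfold h2kronEv
  exact Polynomial.eval₂_sub _

lemma h2kronEv_X (a b : S) : h2kronEv (X : (k[X])[X]) a b = a := by
  unfold h2kronEv
  exact Polynomial.eval₂_X _ _

lemma h2kronEv_C (f : k[X]) (a b : S) : h2kronEv (C f : (k[X])[X]) a b = aeval b f := by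
  unfold h2kronEv
  exact Polynomial.eval₂_C _ _

lemma h2kronEv_pow (Ψ : (k[X])[X]) (n : ℕ) (a b : S) :
    h2kronEv (Ψ ^ n) a b = h2kronEv Ψ a b ^ n := by
  unfold h2kronEv
  exact Polynomial.eval₂_pow _ _ _

lemma h2kronEv_monomial (n : ℕ) (f : k[X]) (a b : S) :
    h2kronEv (monomial n f : (k[X])[X]) a b = aeval b f * a ^ n := by
  unfold h2kronEv
  exact Polynomial.eval₂_monomial _ _

/-- the value of the Kronecker product `(X - Y^l)(X^l - Y)`. -/
lemma h2kronEv_kron (l : ℕ) (a b : S) :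
    h2kronEv ((X - C (X ^ l : k[X])) * (X ^ l - C (X : k[X]))) a b =
      (a - b ^ l) * (a ^ l - b) := by
  rw [h2kronEv_mul, h2kronEv_sub, h2kronEv_sub, h2kronEv_pow, h2kronEv_X, h2kronEv_C,
    h2kronEv_C, map_pow, aeval_X]

lemma h2kronEv_eq_aevalAeval (Ψ : (k[X])[X]) (a b : S) :
    h2kronEv Ψ a b = Polynomial.aevalAeval b a Ψ := by
  induction Ψ using Polynomial.induction_on' with
  | add p q hp hq => rw [h2kronEv_add, hp, hq, map_add]
  | monomial n f =>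
    rw [h2kronEv_monomial, ← C_mul_X_pow_eq_monomial, map_mul, map_pow, aevalAeval_C,
      aevalAeval_Y]

/-- Evaluation at `(X = aeval t f, Y = t)` is `aeval t` of the evaluation at `X = f`. -/
lemma h2kronEv_aeval (Ψ : (k[X])[X]) (t : S) (f : k[X]) :
    h2kronEv Ψ (Polynomial.aeval t f) t = Polynomial.aeval t (Ψ.eval f) := by
  unfold h2kronEv
  have := Polynomial.hom_eval₂ Ψ (RingHom.id (k[X])) (Polynomial.aeval t : k[X] →ₐ[k] S).toRingHom f
  rw [Polynomial.eval₂_id] at this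
  simpa using this.symm

/-- `Ψ(t^l, t) = 0` gives `Ψ(X = Y^l) = 0`. -/
lemma h2kron_eval_eq_zero (Ψ : (k[X])[X]) (t : S) (ht : Transcendental k t) (l : ℕ)
    (h1 : h2kronEv Ψ (t ^ l) t = 0) : Ψ.eval (X ^ l : k[X]) = 0 := by
  have h := h2kronEv_aeval Ψ t (X ^ l)
  rw [map_pow, aeval_X, h1] at h
  exact (transcendental_iff_injective.mp ht) (by rw [← h, map_zero])

/-- first divisibility: `Ψ(t^l, t) = 0` gives `(X - Y^l) ∣ Ψ`. -/
lemma h2kron_dvd_one (Ψ : (k[X])[X]) (t : S) (ht : Transcendental k t) (l : ℕ)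
    (h1 : h2kronEv Ψ (t ^ l) t = 0) : (X - C (X ^ l : k[X])) ∣ Ψ := by
  rw [Polynomial.dvd_iff_isRoot, Polynomial.IsRoot.def]
  exact h2kron_eval_eq_zero Ψ t ht l h1


/-- evaluation of the swapped polynomial. -/
lemma h2kronEv_swap (Ψ : (k[X])[X]) (a b : S) :
    h2kronEv (Polynomial.Bivariate.swap Ψ) a b = h2kronEv Ψ b a := by
  rw [h2kronEv_eq_aevalAeval, h2kronEv_eq_aevalAeval]
  exact Polynomial.Bivariate.aevalAeval_swap b a Ψ

lemma h2kron_swap_kron (l : ℕ) :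
    Polynomial.Bivariate.swap (X - C (X ^ l : k[X])) = C (X : k[X]) - X ^ l := by
  have e1 : Polynomial.Bivariate.swap (X : (k[X])[X]) = C X := Polynomial.Bivariate.swap_Y
  have e2 : Polynomial.Bivariate.swap (C (X ^ l : k[X])) = (X : (k[X])[X]) ^ l := by
    rw [Polynomial.Bivariate.swap_C, Polynomial.map_pow, Polynomial.map_X]
  rw [map_sub, e1, e2]

/-- second divisibility: `Ψ(t, t^l) = 0` gives `(X^l - Y) ∣ Ψ`. -/
lemma h2kron_dvd_two (Ψ : (k[X])[X]) (t : S) (ht : Transcendental k t) (l : ℕ)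
    (h2 : h2kronEv Ψ t (t ^ l) = 0) : (X ^ l - C (X : k[X])) ∣ Ψ := by
  have h3 : h2kronEv (Polynomial.Bivariate.swap Ψ) (t ^ l) t = 0 := by
    rw [h2kronEv_swap]
    exact h2
  obtain ⟨Q, hQ⟩ := h2kron_dvd_one _ t ht l h3
  have h5 := congrArg Polynomial.Bivariate.swap hQ
  rw [Polynomial.Bivariate.swap_swap_apply, map_mul, h2kron_swap_kron] at h5
  exact ⟨- Polynomial.Bivariate.swap Q, by rw [h5]; ring⟩

/-- **Kronecker's congruence, algebraic core.** -/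
theorem h2kron_core (Ψ : (k[X])[X]) (l : ℕ) (hl : 2 ≤ l) (hm : Ψ.Monic)
    (hd : Ψ.natDegree = l + 1) (t : S) (ht : Transcendental k t)
    (h1 : h2kronEv Ψ (t ^ l) t = 0) (h2 : h2kronEv Ψ t (t ^ l) = 0) :
    Ψ = (X - C (X ^ l : k[X])) * (X ^ l - C (X : k[X])) := by
  obtain ⟨Q, hQ⟩ := h2kron_dvd_two Ψ t ht l h2
  have h0 := h2kron_eval_eq_zero Ψ t ht l h1
  rw [hQ, eval_mul, eval_sub, eval_pow, eval_X, eval_C] at h0
  have hne : ((X ^ l : k[X]) ^ l - X) ≠ 0 := by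
    intro h
    have h' := congrArg (fun f => f.coeff 1) h
    simp only [coeff_sub, coeff_X_one, coeff_zero, ← pow_mul, coeff_X_pow] at h'
    have : ¬ (1 = l * l) := by nlinarith
    rw [if_neg this] at h'
    simp at h'
  have hQ0 : Q.eval (X ^ l : k[X]) = 0 := by
    rcases mul_eq_zero.mp h0 with h | h
    · exact absurd h hne
    · exact h
  have hdvd : (X - C (X ^ l : k[X])) ∣ Q := by
    rw [Polynomial.dvd_iff_isRoot, Polynomial.IsRoot.def]
    exact hQ0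
  have hdvd2 : (X - C (X ^ l : k[X])) * (X ^ l - C (X : k[X])) ∣ Ψ := by
    obtain ⟨Q', hQ'⟩ := hdvd
    exact ⟨Q', by rw [hQ, hQ']; ring⟩
  have hl0 : l ≠ 0 := by omega
  have hmon : ((X - C (X ^ l : k[X])) * (X ^ l - C (X : k[X]))).Monic :=
    (monic_X_sub_C _).mul (monic_X_pow_sub_C _ hl0)
  have hdeg : ((X - C (X ^ l : k[X])) * (X ^ l - C (X : k[X]))).natDegree = l + 1 := by
    rw [Polynomial.Monic.natDegree_mul (monic_X_sub_C _) (monic_X_pow_sub_C _ hl0),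
      natDegree_X_sub_C, natDegree_X_pow_sub_C]
    omega
  exact Polynomial.eq_of_monic_of_dvd_of_natDegree_le hmon hm hdvd2 (by rw [hd, hdeg])

end core

end Fermat.Agent.S37x.Kron.H2
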