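import Fermat.Agent.S37x.Kron.H2_Frob
import Fermat.Agent.S37x.Kron.H2_KronAlg
import Fermat.Agent.S28.Mod.H24_ModFinal

/-!
# S37 / (KRON-POLY) (helper2): Kronecker's congruence for the modular polynomial `Φ_l`

From the modular equation of prime level `l` over `ℤ` (package MOD of S28, both relations
`Φ(j_l ; j) = 0` and `Φ(j ; j_l) = 0`) and Frobenius on `𝔽_l((q))`:

* `h2kronPhi l hl : (ℤ[X])[X]` : a modular polynomial of level `l` (outer variable `X`, inner `Y`);
* `h2kronPhi_monic`, `h2kronPhi_natDegree`, `h2kronPhi_rel₁`, `h2kronPhi_rel₂`;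
* `h2kronPhi_map` : `Φ_l mod l = (X - Y^l) (X^l - Y)`;
* `h2kronPhi_value` : in every commutative ring `S` with `(l : S) = 0`,
  `Φ_l(a, b) = (a - b^l) (a^l - b)`;
* `h2kronPhi_cases` : in a domain of characteristic `l`, `Φ_l(a, b) = 0 → a = b^l ∨ a^l = b`;
* `kron_poly` : the existential package.
-/

set_option autoImplicit false

open Polynomial ModularCurve

noncomputable section

namespace Fermat.Agent.S37x.Kron.H2

open Fermat.Agent.S28.Deg.H9 (ev2)

/-- `ev2` through the reduction of the polynomial to a coefficient field `k`. -/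
lemma h2kron_ev2_eq {k : Type*} [Field k] {S : Type*} [CommRing S] [Algebra k S]
    (Φ : (ℤ[X])[X]) (a b : S) :
    ev2 Φ a b = h2kronEv (Φ.map (Polynomial.mapRingHom (Int.castRingHom k))) a b := by
  unfold ev2 h2kronEv
  rw [Polynomial.eval₂_map]
  congr 1
  apply Polynomial.ringHom_ext
  · intro n
    simp
  · simp

/-- The modular equation of level `l` over `ℤ`, both relations (from S28, package MOD). -/
theorem h2kron_exists_modpoly (l : ℕ) [NeZero l] (hl : l.Prime) :
    ∃ Φ : (ℤ[X])[X], Φ.Monic ∧ Φ.natDegree = l + 1 ∧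
      ev2 Φ (qExpand ℤ l (jqModC ℤ)) (jqModC ℤ) = 0 ∧
      ev2 Φ (jqModC ℤ) (qExpand ℤ l (jqModC ℤ)) = 0 :=
  (Fermat.Agent.S28.Mod.H24.h24_stModC l hl).int

/-- A modular polynomial of prime level `l`: `Φ_l ∈ ℤ[Y][X]`. -/
def h2kronPhi (l : ℕ) [NeZero l] (hl : l.Prime) : (ℤ[X])[X] :=
  Classical.choose (h2kron_exists_modpoly l hl)

section props

variable (l : ℕ) [NeZero l] (hl : l.Prime)

theorem h2kronPhi_monic : (h2kronPhi l hl).Monic :=
  (Classical.choose_spec (h2kron_exists_modpoly l hl)).1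

theorem h2kronPhi_natDegree : (h2kronPhi l hl).natDegree = l + 1 :=
  (Classical.choose_spec (h2kron_exists_modpoly l hl)).2.1

/-- `Φ_l(j(q^l) ; j(q)) = 0` over every commutative ring. -/
theorem h2kronPhi_rel₁ (R : Type*) [CommRing R] :
    ev2 (h2kronPhi l hl) (qExpand R l (jqModC R)) (jqModC R) = 0 := by
  have h := congrArg (coeffMap (Int.castRingHom R))
    (Classical.choose_spec (h2kron_exists_modpoly l hl)).2.2.1
  rwa [Fermat.Agent.S28.Deg.H9.ev2_hom, coeffMap_qExpand, coeffMap_jqModC, map_zero] at h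

/-- `Φ_l(j(q) ; j(q^l)) = 0` over every commutative ring. -/
theorem h2kronPhi_rel₂ (R : Type*) [CommRing R] :
    ev2 (h2kronPhi l hl) (jqModC R) (qExpand R l (jqModC R)) = 0 := by
  have h := congrArg (coeffMap (Int.castRingHom R))
    (Classical.choose_spec (h2kron_exists_modpoly l hl)).2.2.2
  rwa [Fermat.Agent.S28.Deg.H9.ev2_hom, coeffMap_qExpand, coeffMap_jqModC, map_zero] at h

/-- **Kronecker's congruence**: `Φ_l ≡ (X - Y^l) (X^l - Y) mod l`. -/
theorem h2kronPhi_map :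
    (h2kronPhi l hl).map (Polynomial.mapRingHom (Int.castRingHom (ZMod l))) =
      (X - C (X ^ l : (ZMod l)[X])) * (X ^ l - C (X : (ZMod l)[X])) := by
  have : Fact l.Prime := ⟨hl⟩
  have ht : Transcendental (ZMod l) (jqModC (ZMod l)) :=
    Fermat.Agent.S28.Deg.H21.transcendental_jqModC (ZMod l)
  have h1 := h2kronPhi_rel₁ l hl (ZMod l)
  have h2 := h2kronPhi_rel₂ l hl (ZMod l)
  rw [h2kron_qExpand_zmod, h2kron_ev2_eq (k := ZMod l)] at h1 h2
  refine h2kron_core _ l hl.two_le ((h2kronPhi_monic l hl).map _) ?_ (jqModC (ZMod l)) ht h1 h2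
  rw [(h2kronPhi_monic l hl).natDegree_map, h2kronPhi_natDegree]

/-- **Value form of Kronecker's congruence**: in a commutative ring with `l = 0`,
`Φ_l(a, b) = (a - b^l) (a^l - b)`. -/
theorem h2kronPhi_value {S : Type*} [CommRing S] (hS : (l : S) = 0) (a b : S) :
    ev2 (h2kronPhi l hl) a b = (a - b ^ l) * (a ^ l - b) := by
  have : Fact l.Prime := ⟨hl⟩
  let _ : Algebra (ZMod l) S := (ZMod.castHom ((ringChar.dvd hS)) S).toAlgebra
  rw [h2kron_ev2_eq (k := ZMod l), h2kronPhi_map, h2kronEv_kron]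

/-- In characteristic `l`. -/
theorem h2kronPhi_value_charP {S : Type*} [CommRing S] [CharP S l] (a b : S) :
    ev2 (h2kronPhi l hl) a b = (a - b ^ l) * (a ^ l - b) :=
  h2kronPhi_value l hl (CharP.cast_eq_zero S l) a b

/-- In a domain with `l = 0`: a zero `(a, b)` of `Φ_l` satisfies `a = b^l` or `a^l = b`. -/
theorem h2kronPhi_cases {S : Type*} [CommRing S] [IsDomain S] (hS : (l : S) = 0) (a b : S)
    (h : ev2 (h2kronPhi l hl) a b = 0) : a = b ^ l ∨ a ^ l = b := by
  rw [h2kronPhi_value l hl hS] at h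
  rcases mul_eq_zero.mp h with h | h
  · exact Or.inl (sub_eq_zero.mp h)
  · exact Or.inr (sub_eq_zero.mp h)

/-- Transport of a zero of `Φ_l` along a ring homomorphism. -/
theorem h2kronPhi_hom {S T : Type*} [CommRing S] [CommRing T] (φ : S →+* T) (a b : S)
    (h : ev2 (h2kronPhi l hl) a b = 0) : ev2 (h2kronPhi l hl) (φ a) (φ b) = 0 := by
  rw [← Fermat.Agent.S28.Deg.H9.ev2_hom, h, map_zero]

/-- **The support constraint**: if `Φ_l(a, b) = 0` in `S` and `φ : S → T` is a ring homomorphism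
to a domain with `l = 0`, then `φ a = (φ b)^l` or `(φ a)^l = φ b`. -/
theorem h2kronPhi_red {S T : Type*} [CommRing S] [CommRing T] [IsDomain T] (φ : S →+* T)
    (hT : (l : T) = 0) (a b : S) (h : ev2 (h2kronPhi l hl) a b = 0) :
    φ a = φ b ^ l ∨ φ a ^ l = φ b :=
  h2kronPhi_cases l hl hT _ _ (h2kronPhi_hom l hl φ a b h)

end props

/-- **(KRON-POLY)**, existential package. -/
theorem h2kron_poly (l : ℕ) [NeZero l] (hl : l.Prime) :
    ∃ Φ : (ℤ[X])[X], Φ.Monic ∧ Φ.natDegree = l + 1 ∧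
      (∀ (R : Type) [CommRing R],
        ev2 Φ (qExpand R l (jqModC R)) (jqModC R) = 0 ∧
        ev2 Φ (jqModC R) (qExpand R l (jqModC R)) = 0) ∧
      Φ.map (Polynomial.mapRingHom (Int.castRingHom (ZMod l))) =
        (X - C (X ^ l : (ZMod l)[X])) * (X ^ l - C (X : (ZMod l)[X])) ∧
      (∀ (S : Type) [CommRing S], (l : S) = 0 → ∀ a b : S,
        ev2 Φ a b = (a - b ^ l) * (a ^ l - b)) :=
  ⟨h2kronPhi l hl, h2kronPhi_monic l hl, h2kronPhi_natDegree l hl,
    fun R _ => ⟨h2kronPhi_rel₁ l hl R, h2kronPhi_rel₂ l hl R⟩, h2kronPhi_map l hl,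
    fun _ _ hS a b => h2kronPhi_value l hl hS a b⟩

end Fermat.Agent.S37x.Kron.H2
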