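import Fermat.Agent.S37x.Kron.H2_PlaceAlg
import Fermat.Agent.S37x.Kron.H2_Kron
import Fermat.Agent.S37x.Asm.DefsLeaves
import Fermat.Agent.S24.H15_DiffFK

/-!
# S37 / [KRON], place form (helper2): `stKron : Asm.StKron N ℓ A`

Kronecker's congruence for the `j`-values at a place `W` of `F_{Nℓ}`.
-/

set_option autoImplicit false
set_option synthInstance.maxHeartbeats 400000
set_option maxHeartbeats 1000000

open Polynomial AlgebraicCurve ModularCurve

noncomputable section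

namespace Fermat.Agent.S37x.Kron.H2

open Fermat.Agent.S28.Deg.H9 (ev2 ev2_hom)
open Fermat.Agent.S24.RH
open Fermat.Agent.S37x.Asm

/-- An embedding of the algebraic numbers into the complex numbers. -/
def h2kronEmb : AlgebraicClosure ℚ →+* ℂ :=
  haveI : Algebra.IsAlgebraic ℚ (AlgebraicClosure ℚ) := AlgebraicClosure.isAlgebraic ℚ
  (IsAlgClosed.lift (R := ℚ) (S := AlgebraicClosure ℚ) (M := ℂ)).toRingHom

/-- Every place of `F_M` over `ℚ̄` has residue field `ℚ̄`. -/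
theorem h2kron_residueTrivial (M : ℕ) [NeZero M]
    (W : Place (AlgebraicClosure ℚ) (modularFunctionFieldBar M)) : ResidueTrivial W :=
  residueTrivial_FK h2kronEmb M W

/-- In a valuation ring over `ℓ`, `ℓ = 0` in the residue field. -/
theorem h2kron_natCast_residue {L : Type*} [Field L] (A : ValuationSubring L) (ℓ : ℕ)
    (hA : A.LiesOverPrime ℓ) : ((ℓ : ℕ) : IsLocalRing.ResidueField A) = 0 := by
  have h1 : ((ℓ : A) : L) ∈ A.nonunits := by
    have : ((ℓ : A) : L) = (ℓ : L) := by simp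
    rw [this]
    exact hA
  have h2 : (ℓ : A) ∈ IsLocalRing.maximalIdeal A := by
    rw [IsLocalRing.mem_maximalIdeal]
    exact (ValuationSubring.coe_mem_nonunits_iff).mp h1
  have h3 := (IsLocalRing.residue_eq_zero_iff (ℓ : A)).mpr h2
  rwa [map_natCast] at h3

section inst

variable (N : ℕ) [NeZero N] (ℓ : ℕ) [NeZero ℓ]

/-- `j` as an element of `F_{Nℓ}`. -/
lemma h2kron_coe_alpha_j :
    ((heckeAlphaBar (AlgebraicClosure ℚ) N ℓ (jL N) : modularFunctionFieldBar (N * ℓ)) :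
      LaurentSeries (AlgebraicClosure ℚ)) = jqModC (AlgebraicClosure ℚ) := rfl

omit [NeZero N] in
/-- `j(q^ℓ)` as an element of `F_{Nℓ}`. -/
lemma h2kron_coe_beta_j :
    ((heckeBetaBar (AlgebraicClosure ℚ) N ℓ (jL N) : modularFunctionFieldBar (N * ℓ)) :
      LaurentSeries (AlgebraicClosure ℚ)) =
      qExpand (AlgebraicClosure ℚ) ℓ (jqModC (AlgebraicClosure ℚ)) := rfl

lemma h2kron_alpha_j_not_const :
    heckeAlphaBar (AlgebraicClosure ℚ) N ℓ (jL N) ∉
      Set.range (algebraMap (AlgebraicClosure ℚ) (modularFunctionFieldBar (N * ℓ))) := by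
  rintro ⟨c, hc⟩
  have h := congrArg (fun z : modularFunctionFieldBar (N * ℓ) =>
    (z : LaurentSeries (AlgebraicClosure ℚ)).coeff (-1)) hc
  simp only [h2kron_coe_alpha_j, coeff_jqModC_neg_one] at h
  have h' : ((algebraMap (AlgebraicClosure ℚ) (modularFunctionFieldBar (N * ℓ)) c :
      modularFunctionFieldBar (N * ℓ)) : LaurentSeries (AlgebraicClosure ℚ)) =
      algebraMap (AlgebraicClosure ℚ) (LaurentSeries (AlgebraicClosure ℚ)) c := rfl
  rw [h', algebraMap_laurentSeries_eq_single, HahnSeries.coeff_single_of_ne (by norm_num)] at h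
  exact zero_ne_one h

omit [NeZero N] in
lemma h2kron_beta_j_not_const :
    heckeBetaBar (AlgebraicClosure ℚ) N ℓ (jL N) ∉
      Set.range (algebraMap (AlgebraicClosure ℚ) (modularFunctionFieldBar (N * ℓ))) := by
  rintro ⟨c, hc⟩
  have h := congrArg (fun z : modularFunctionFieldBar (N * ℓ) =>
    (z : LaurentSeries (AlgebraicClosure ℚ)).coeff ((ℓ : ℤ) * (-1))) hc
  simp only [h2kron_coe_beta_j, qExpand_coeff_mul, coeff_jqModC_neg_one] at h
  have h' : ((algebraMap (AlgebraicClosure ℚ) (modularFunctionFieldBar (N * ℓ)) c :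
      modularFunctionFieldBar (N * ℓ)) : LaurentSeries (AlgebraicClosure ℚ)) =
      algebraMap (AlgebraicClosure ℚ) (LaurentSeries (AlgebraicClosure ℚ)) c := rfl
  have hℓ : ((ℓ : ℤ) * (-1)) ≠ 0 := by
    have : (ℓ : ℤ) ≠ 0 := by exact_mod_cast NeZero.ne ℓ
    simpa using this
  rw [h', algebraMap_laurentSeries_eq_single, HahnSeries.coeff_single_of_ne hℓ] at h
  exact zero_ne_one h

/-- `Φ_ℓ(j ; j(q^ℓ)) = 0` in `F_{Nℓ}`. -/
lemma h2kron_rel_alpha_beta (hℓ : ℓ.Prime) :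
    ev2 (h2kronPhi ℓ hℓ) (heckeAlphaBar (AlgebraicClosure ℚ) N ℓ (jL N))
      (heckeBetaBar (AlgebraicClosure ℚ) N ℓ (jL N)) = 0 := by
  apply Subtype.val_injective
  have h := ev2_hom (modularFunctionFieldBar (N * ℓ)).val.toRingHom (h2kronPhi ℓ hℓ)
    (heckeAlphaBar (AlgebraicClosure ℚ) N ℓ (jL N)) (heckeBetaBar (AlgebraicClosure ℚ) N ℓ (jL N))
  refine h.trans ?_
  exact h2kronPhi_rel₂ ℓ hℓ (AlgebraicClosure ℚ)

/-- `Φ_ℓ(j(q^ℓ) ; j) = 0` in `F_{Nℓ}`. -/
lemma h2kron_rel_beta_alpha (hℓ : ℓ.Prime) :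
    ev2 (h2kronPhi ℓ hℓ) (heckeBetaBar (AlgebraicClosure ℚ) N ℓ (jL N))
      (heckeAlphaBar (AlgebraicClosure ℚ) N ℓ (jL N)) = 0 := by
  apply Subtype.val_injective
  have h := ev2_hom (modularFunctionFieldBar (N * ℓ)).val.toRingHom (h2kronPhi ℓ hℓ)
    (heckeBetaBar (AlgebraicClosure ℚ) N ℓ (jL N)) (heckeAlphaBar (AlgebraicClosure ℚ) N ℓ (jL N))
  refine h.trans ?_
  exact h2kronPhi_rel₁ ℓ hℓ (AlgebraicClosure ℚ)

/-- **[KRON]**, place form. -/
theorem stKron (hℓ : ℓ.Prime) (A : ValuationSubring (AlgebraicClosure ℚ))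
    (hA : A.LiesOverPrime ℓ) : StKron N ℓ A := by
  intro W
  have hres : ResidueTrivial W := h2kron_residueTrivial (N * ℓ) W
  have hT : ((ℓ : ℕ) : IsLocalRing.ResidueField A) = 0 := h2kron_natCast_residue A ℓ hA
  refine ⟨?_, ?_⟩
  · intro b hb hWb
    rw [map_sub, AlgHom.commutes] at hWb
    obtain ⟨a, ha, hWa, hab⟩ := h2kron_place_value W hres A (h2kronPhi ℓ hℓ)
      (h2kronPhi_monic ℓ hℓ) _ _ (h2kron_alpha_j_not_const N ℓ) (h2kron_rel_alpha_beta N ℓ hℓ)
      b hb hWb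
    refine ⟨a, ha, ?_, ?_⟩
    · rw [map_sub, AlgHom.commutes]
      exact hWa
    · have habA : ev2 (h2kronPhi ℓ hℓ) (⟨a, ha⟩ : A) ⟨b, hb⟩ = 0 := by
        apply Subtype.val_injective
        have h := ev2_hom A.subtype (h2kronPhi ℓ hℓ) ⟨a, ha⟩ ⟨b, hb⟩
        exact h.trans hab
      exact (h2kronPhi_red ℓ hℓ (IsLocalRing.residue A) hT _ _ habA).symm
  · intro hcusp
    by_contra hnot
    rw [not_or, not_lt, not_exists] at hnot
    obtain ⟨hord, hval⟩ := hnot
    have hjO : heckeAlphaBar (AlgebraicClosure ℚ) N ℓ (jL N) ∈ W.toValuationSubring :=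
      mem_of_ord_nonneg W hord
    obtain hneg | ⟨a, haW⟩ := ord_pos_or_ord_neg W hres (h2kron_alpha_j_not_const N ℓ)
    · omega
    have haW' : 0 < W.ord (heckeAlphaBar (AlgebraicClosure ℚ) N ℓ
        (jL N - algebraMap (AlgebraicClosure ℚ) (modularFunctionFieldBar N) a)) := by
      rw [map_sub, AlgHom.commutes]
      exact haW
    have ha : a ∈ A := by
      by_contra ha
      exact hval a ⟨ha, haW'⟩
    obtain ⟨b', hb', hWb', -⟩ := h2kron_place_value W hres A (h2kronPhi ℓ hℓ)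
      (h2kronPhi_monic ℓ hℓ) _ _ (h2kron_beta_j_not_const N ℓ) (h2kron_rel_beta_alpha N ℓ hℓ)
      a ha haW
    rcases hcusp with hneg | ⟨b, hbA, hWb⟩
    · exact not_ord_sub_pos_of_ord_neg W hneg b' hWb'
    · rw [map_sub, AlgHom.commutes] at hWb
      have := eq_of_ord_sub_pos W hWb hWb'
      exact hbA (this ▸ hb')

end inst

end Fermat.Agent.S37x.Kron.H2
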