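import Mathlib
import Fermat.Prelude.Def_ModularCurve_X0
import Fermat.Prelude.Def_ModularCurve_X0ModL

/-!
# S37 / (KRON-POLY), part A (helper2): Frobenius on Laurent series in characteristic `l`

* `h2kron_qExpand_ofPowerSeries` : `qExpand` on power series is `PowerSeries.expand`;
* `h2kron_frobenius` : in characteristic `l`, `f ^ l = coeffMap (frobenius R l) (qExpand R l f)`;
* `h2kron_qExpand_zmod` : over `ZMod l`, `qExpand (ZMod l) l f = f ^ l`.
-/

set_option autoImplicit false

open Polynomial ModularCurve

noncomputable section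

namespace Fermat.Agent.S37x.Kron.H2

/-- `qExpand` restricted to power series is `PowerSeries.expand`. -/
theorem h2kron_qExpand_ofPowerSeries (R : Type*) [CommRing R] (l : ℕ) [NeZero l]
    (g : PowerSeries R) :
    qExpand R l (HahnSeries.ofPowerSeries ℤ R g) =
      HahnSeries.ofPowerSeries ℤ R (PowerSeries.expand l (NeZero.ne l) g) := by
  ext k
  rcases le_or_gt 0 k with hk | hk
  · lift k to ℕ using hk
    rw [HahnSeries.ofPowerSeries_apply_coeff]
    by_cases hd : l ∣ k
    · obtain ⟨m, rfl⟩ := hd
      rw [PowerSeries.coeff_expand_mul]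
      have : ((l * m : ℕ) : ℤ) = (l : ℤ) * (m : ℤ) := by push_cast; ring
      rw [this, qExpand_coeff_mul, HahnSeries.ofPowerSeries_apply_coeff]
    · rw [PowerSeries.coeff_expand_of_not_dvd _ _ _ hd]
      apply qExpand_coeff_of_not_dvd
      intro h
      exact hd (by exact_mod_cast h)
  · rw [ModularCurve.ofPowerSeries_coeff_of_neg _ hk]
    by_cases hd : (l : ℤ) ∣ k
    · obtain ⟨m, rfl⟩ := hd
      rw [qExpand_coeff_mul]
      have hl : (0 : ℤ) < l := by exact_mod_cast Nat.pos_of_ne_zero (NeZero.ne l)
      have hm : m < 0 := by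
        rcases lt_or_ge m 0 with hm | hm
        · exact hm
        · have := mul_nonneg hl.le hm
          omega
      exact ModularCurve.ofPowerSeries_coeff_of_neg _ hm
    · exact qExpand_coeff_of_not_dvd l _ hd

/-- **Frobenius on Laurent series**: in characteristic `l`, the `l`-th power of a Laurent series
is `f(q^l)` with the coefficients raised to the `l`-th power. -/
theorem h2kron_frobenius (R : Type*) [CommRing R] (l : ℕ) [NeZero l] [ExpChar R l]
    (f : LaurentSeries R) :
    f ^ l = coeffMap (frobenius R l) (qExpand R l f) := by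
  have e := LaurentSeries.single_order_mul_powerSeriesPart f
  have h1 : qExpand R l f = HahnSeries.single ((l : ℤ) * f.order) 1 *
      HahnSeries.ofPowerSeries ℤ R (PowerSeries.expand l (NeZero.ne l) f.powerSeriesPart) := by
    conv_lhs => rw [← e]
    rw [map_mul, qExpand_single, h2kron_qExpand_ofPowerSeries]
  have h2 : f ^ l = HahnSeries.single ((l : ℤ) * f.order) 1 *
      HahnSeries.ofPowerSeries ℤ R (f.powerSeriesPart ^ l) := by
    conv_lhs => rw [← e]
    rw [mul_pow, HahnSeries.single_pow, one_pow, ← map_pow]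
    simp
  rw [h1, h2, map_mul, coeffMap_single, coeffMap_ofPowerSeries]
  congr 2
  · simp
  · exact (MvPowerSeries.map_frobenius_expand (σ := Unit) l (NeZero.ne l)).symm

/-- Over `ZMod l`: `f(q^l) = f ^ l`. -/
theorem h2kron_qExpand_zmod (l : ℕ) [NeZero l] [Fact l.Prime] (f : LaurentSeries (ZMod l)) :
    qExpand (ZMod l) l f = f ^ l := by
  rw [h2kron_frobenius (ZMod l) l f, ZMod.frobenius_zmod]
  exact (coeffMap_id _).symm

end Fermat.Agent.S37x.Kron.H2
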