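import Fermat.Agent.S24.H15_Kaehler
import Fermat.Agent.S28.Deg.H9_PrimeAsm

/-!
# S37 / [KRON], place form, generic part (helper2)

`h2kron_place_value`: let `W` be a place of `F / K` with residue field `K`, `A` a valuation ring
of `K`, `Φ ∈ ℤ[Y][X]` monic in `X`, and `x, y ∈ F` with `Φ(x ; y) = 0`, `x` not constant.
If `y` has the value `b ∈ A` at `W`, then `x` has a value `a ∈ A` at `W`, and `Φ(a ; b) = 0`.
-/

set_option autoImplicit false

open Polynomial AlgebraicCurve

noncomputable section

namespace Fermat.Agent.S37x.Kron.H2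

open Fermat.Agent.S28.Deg.H9 (ev2 ev2_hom)
open Fermat.Agent.S24.RH

/-- A root `x` of `Φ(· ; y)`, `Φ` monic, `y` in a valuation ring `O`, lies in `O`. -/
theorem h2kron_mem_of_ev2 {F : Type*} [Field F] (O : ValuationSubring F) (Φ : (ℤ[X])[X])
    (hΦ : Φ.Monic) (x y : F) (hy : y ∈ O) (h : ev2 Φ x y = 0) : x ∈ O := by
  have hint : IsIntegral O x := by
    refine ⟨Φ.map (Polynomial.eval₂RingHom (Int.castRingHom O) ⟨y, hy⟩), hΦ.map _, ?_⟩
    rw [Polynomial.eval₂_map]
    have e : (algebraMap O F).comp (Polynomial.eval₂RingHom (Int.castRingHom O) ⟨y, hy⟩) =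
        Polynomial.eval₂RingHom (Int.castRingHom F) y := by
      apply Polynomial.ringHom_ext
      · intro n
        simp
      · simp
    rw [e]
    exact h
  obtain ⟨z, hz⟩ := IsIntegrallyClosed.isIntegral_iff.mp hint
  rw [← hz]
  exact z.2

/-- **Kronecker at a place, generic form.** -/
theorem h2kron_place_value {K F : Type*} [Field K] [Field F] [Algebra K F]
    (W : Place K F) (hres : ResidueTrivial W) (A : ValuationSubring K)
    (Φ : (ℤ[X])[X]) (hΦ : Φ.Monic) (x y : F) (hx : x ∉ Set.range (algebraMap K F))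
    (hrel : ev2 Φ x y = 0) (b : K) (hb : b ∈ A)
    (hyb : 0 < W.ord (y - algebraMap K F b)) :
    ∃ a : K, a ∈ A ∧ 0 < W.ord (x - algebraMap K F a) ∧ ev2 Φ a b = 0 := by
  obtain ⟨hyb1, hyb2⟩ := mem_maximalIdeal_of_ord_pos W hyb
  have hy : y ∈ W.toValuationSubring := by
    have := add_mem hyb1 (W.algebraMap_mem' b)
    simpa using this
  have hxO : x ∈ W.toValuationSubring := h2kron_mem_of_ev2 _ Φ hΦ x y hy hrel
  obtain ⟨a, ha⟩ := hres ⟨x, hxO⟩
  have hne : (⟨x, hxO⟩ - algebraMap K W.toValuationSubring a : W.toValuationSubring) ≠ 0 := by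
    intro h
    apply hx
    refine ⟨a, ?_⟩
    have := congrArg (Subtype.val) h
    simp only [AddSubgroupClass.coe_sub, W.coe_algebraMap, ZeroMemClass.coe_zero] at this
    exact (sub_eq_zero.mp this).symm
  have hxa : 0 < W.ord (x - algebraMap K F a) := by
    have := ord_pos_of_mem_maximalIdeal W ha hne
    simpa using this
  -- the relation in the valuation ring and in its residue field
  have hrelO : ev2 Φ (⟨x, hxO⟩ : W.toValuationSubring) ⟨y, hy⟩ = 0 := by
    apply Subtype.val_injective
    have := ev2_hom (W.toValuationSubring.subtype) Φ ⟨x, hxO⟩ ⟨y, hy⟩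
    simpa [hrel] using this
  have hrelk := congrArg (IsLocalRing.residue W.toValuationSubring) hrelO
  rw [ev2_hom, map_zero] at hrelk
  have e1 : IsLocalRing.residue W.toValuationSubring ⟨x, hxO⟩ =
      IsLocalRing.residue W.toValuationSubring (algebraMap K W.toValuationSubring a) := by
    rw [← sub_eq_zero, ← map_sub]
    exact (IsLocalRing.residue_eq_zero_iff _).mpr ha
  have e2 : IsLocalRing.residue W.toValuationSubring ⟨y, hy⟩ =
      IsLocalRing.residue W.toValuationSubring (algebraMap K W.toValuationSubring b) := by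
    rw [← sub_eq_zero, ← map_sub]
    refine (IsLocalRing.residue_eq_zero_iff _).mpr ?_
    have : (⟨y, hy⟩ - algebraMap K W.toValuationSubring b : W.toValuationSubring) =
        ⟨y - algebraMap K F b, hyb1⟩ := by
      apply Subtype.ext
      simp [W.coe_algebraMap]
    rw [this]
    exact hyb2
  rw [e1, e2] at hrelk
  have hrelK : ev2 Φ a b = 0 := by
    have h := ev2_hom ((IsLocalRing.residue W.toValuationSubring).comp
      (algebraMap K W.toValuationSubring)) Φ a b
    have h' : ((IsLocalRing.residue W.toValuationSubring).comp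
        (algebraMap K W.toValuationSubring)) (ev2 Φ a b) = 0 := by
      rw [h]
      exact hrelk
    exact (map_eq_zero_iff _ (RingHom.injective _)).mp h'
  exact ⟨a, h2kron_mem_of_ev2 A Φ hΦ a b hb hrelK, hxa, hrelK⟩

end Fermat.Agent.S37x.Kron.H2
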