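import Fermat.Agent.S37x.Kron.H2_Kron
import Fermat.Agent.S37x.Move.H17_InertTop
import Fermat.Agent.S18x.Dict.H23_Dvr

/-!
# S37 [KRON], place form (helper3): Kronecker's congruence for the `j`-values of a place

`F_N = modularFunctionFieldBar N`, `α = heckeAlphaBar` (inclusion), `β = heckeBetaBar`
(`q ↦ q ^ ℓ`), `W` a place of `F_{Nℓ}`, `Φ = h2kronPhi ℓ` the modular polynomial (helper2).

* `h3k_mem_of_ev2` : a valuation ring contains `x` as soon as it contains `y` and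
  `Φ(x ; y) = 0` with `Φ` monic in `X`;
* `h3k_ev2_val` : if `Φ(x ; y) = 0` in `F` and `x`, `y` have the values `a`, `b` at a place,
  then `Φ(a ; b) = 0`;
* `h3k_rel₁`, `h3k_rel₂` : `Φ(β j ; α j) = 0 = Φ(α j ; β j)` in `F_{Nℓ}`;
* `stKron` : the leaf `Asm.StKron N ℓ A`.
-/

set_option autoImplicit false
set_option synthInstance.maxHeartbeats 400000
set_option maxHeartbeats 1000000
set_option linter.style.haveILetI false

open HahnSeries IntermediateField AlgebraicCurve ModularCurve Polynomial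

noncomputable section

namespace Fermat.Agent.S37x.Kron.H3

open Fermat.Agent.S28.Deg.H9 (ev2)
open Fermat.Agent.S37x.Asm
open Fermat.Agent.S37x.Kron.H2

section Generic

/-- `ev2` along the inclusion of a subring. -/
theorem h3k_ev2_subtype {E : Type*} [Field E] (V : ValuationSubring E) (Φ : (ℤ[X])[X])
    (x y : V) : ((ev2 Φ x y : V) : E) = ev2 Φ (x : E) (y : E) :=
  Fermat.Agent.S28.Deg.H9.ev2_hom V.subtype Φ x y

/-- A valuation ring of `E` containing `y` contains every `x` with `Φ(x ; y) = 0`, `Φ` monic in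
the first variable. -/
theorem h3k_mem_of_ev2 {E : Type*} [Field E] (V : ValuationSubring E) (Φ : (ℤ[X])[X])
    (hΦ : Φ.Monic) (x y : E) (hy : y ∈ V) (h : ev2 Φ x y = 0) : x ∈ V := by
  have hint : IsIntegral V x := by
    refine ⟨Φ.map (Polynomial.eval₂RingHom (Int.castRingHom V) ⟨y, hy⟩), hΦ.map _, ?_⟩
    rw [Polynomial.eval₂_map]
    have hc : (algebraMap V E).comp (Polynomial.eval₂RingHom (Int.castRingHom V) ⟨y, hy⟩) =
        Polynomial.eval₂RingHom (Int.castRingHom E) y := by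
      apply Polynomial.ringHom_ext
      · intro n
        simp
      · simp
    rw [hc]
    exact h
  obtain ⟨z, hz⟩ := IsIntegrallyClosed.isIntegral_iff.mp hint
  rw [← hz]
  exact z.2

variable {K F : Type*} [Field K] [Field F] [Algebra K F]

/-- If `x` has a value at `P`, it is regular at `P`. -/
theorem h3k_mem_of_val (P : Place K F) (x : F) (a : K)
    (hx : 0 < P.ord (x - algebraMap K F a)) : x ∈ P.toValuationSubring := by
  obtain ⟨h1, -⟩ := Fermat.Agent.S24.RH.mem_maximalIdeal_of_ord_pos P hx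
  have := add_mem h1 (P.algebraMap_mem' a)
  rwa [sub_add_cancel] at this

/-- If `Φ(x ; y) = 0` and `x`, `y` have the values `a`, `b` at the place `P`, then
`Φ(a ; b) = 0`. -/
theorem h3k_ev2_val (P : Place K F) (Φ : (ℤ[X])[X]) (x y : F) (a b : K)
    (h : ev2 Φ x y = 0) (hx : 0 < P.ord (x - algebraMap K F a))
    (hy : 0 < P.ord (y - algebraMap K F b)) : ev2 Φ a b = 0 := by
  obtain ⟨hx1, hxm⟩ := Fermat.Agent.S24.RH.mem_maximalIdeal_of_ord_pos P hx
  obtain ⟨hy1, hym⟩ := Fermat.Agent.S24.RH.mem_maximalIdeal_of_ord_pos P hy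
  have hxO : x ∈ P.toValuationSubring := h3k_mem_of_val P x a hx
  have hyO : y ∈ P.toValuationSubring := h3k_mem_of_val P y b hy
  have hρx : IsLocalRing.residue P.toValuationSubring ⟨x, hxO⟩ =
      IsLocalRing.residue P.toValuationSubring (algebraMap K P.toValuationSubring a) := by
    rw [← sub_eq_zero, ← map_sub, IsLocalRing.residue_eq_zero_iff]
    exact hxm
  have hρy : IsLocalRing.residue P.toValuationSubring ⟨y, hyO⟩ =
      IsLocalRing.residue P.toValuationSubring (algebraMap K P.toValuationSubring b) := by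
    rw [← sub_eq_zero, ← map_sub, IsLocalRing.residue_eq_zero_iff]
    exact hym
  have h0 : ev2 Φ (⟨x, hxO⟩ : P.toValuationSubring) ⟨y, hyO⟩ = 0 := by
    apply Subtype.val_injective
    rw [h3k_ev2_subtype]
    exact h
  have h1 := congrArg (IsLocalRing.residue P.toValuationSubring) h0
  rw [Fermat.Agent.S28.Deg.H9.ev2_hom, hρx, hρy, map_zero] at h1
  have h2 : ((IsLocalRing.residue P.toValuationSubring).comp
      (algebraMap K P.toValuationSubring)) (ev2 Φ a b) = 0 := by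
    rw [Fermat.Agent.S28.Deg.H9.ev2_hom]
    exact h1
  exact (map_eq_zero_iff _ (RingHom.injective _)).mp h2

end Generic

section Level

variable (N ℓ : ℕ) [NeZero N] [NeZero ℓ]

/-- `α j = j` at level `N ℓ`. -/
theorem h3k_alpha_jL :
    heckeAlphaBar (AlgebraicClosure ℚ) N ℓ (jL N) = jL (N * ℓ) :=
  Subtype.ext (by rw [coe_heckeAlphaBar]; rfl)

theorem h3k_alpha_sub (a : AlgebraicClosure ℚ) :
    heckeAlphaBar (AlgebraicClosure ℚ) N ℓ
        (jL N - algebraMap (AlgebraicClosure ℚ) (modularFunctionFieldBar N) a) =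
      heckeAlphaBar (AlgebraicClosure ℚ) N ℓ (jL N) -
        algebraMap (AlgebraicClosure ℚ) (modularFunctionFieldBar (N * ℓ)) a := by
  rw [map_sub, AlgHom.commutes]

omit [NeZero N] in
theorem h3k_beta_sub (b : AlgebraicClosure ℚ) :
    heckeBetaBar (AlgebraicClosure ℚ) N ℓ
        (jL N - algebraMap (AlgebraicClosure ℚ) (modularFunctionFieldBar N) b) =
      heckeBetaBar (AlgebraicClosure ℚ) N ℓ (jL N) -
        algebraMap (AlgebraicClosure ℚ) (modularFunctionFieldBar (N * ℓ)) b := by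
  rw [map_sub, AlgHom.commutes]

omit [NeZero N] in
theorem h3k_coe_beta_jL :
    ((heckeBetaBar (AlgebraicClosure ℚ) N ℓ (jL N) : modularFunctionFieldBar (N * ℓ)) :
        LaurentSeries (AlgebraicClosure ℚ)) =
      qExpand (AlgebraicClosure ℚ) ℓ (jqModC (AlgebraicClosure ℚ)) :=
  rfl

theorem h3k_coe_alpha_jL :
    ((heckeAlphaBar (AlgebraicClosure ℚ) N ℓ (jL N) : modularFunctionFieldBar (N * ℓ)) :
        LaurentSeries (AlgebraicClosure ℚ)) = jqModC (AlgebraicClosure ℚ) :=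
  rfl

/-- `ev2` along the inclusion of `F_{Nℓ}` in `ℚ̄((q))`. -/
theorem h3k_ev2_coe (M : ℕ) (Φ : (ℤ[X])[X]) (x y : modularFunctionFieldBar M) :
    ((ev2 Φ x y : modularFunctionFieldBar M) : LaurentSeries (AlgebraicClosure ℚ)) =
      ev2 Φ (x : LaurentSeries (AlgebraicClosure ℚ)) (y : LaurentSeries (AlgebraicClosure ℚ)) :=
  Fermat.Agent.S28.Deg.H9.ev2_hom (modularFunctionFieldBar M).val.toRingHom Φ x y

/-- `Φ_ℓ(j(q^ℓ) ; j) = 0` in `F_{Nℓ}`. -/
theorem h3k_rel₁ (hℓ : ℓ.Prime) :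
    ev2 (h2kronPhi ℓ hℓ) (heckeBetaBar (AlgebraicClosure ℚ) N ℓ (jL N))
      (heckeAlphaBar (AlgebraicClosure ℚ) N ℓ (jL N)) = 0 := by
  apply Subtype.val_injective
  rw [h3k_ev2_coe, h3k_coe_beta_jL, h3k_coe_alpha_jL]
  exact h2kronPhi_rel₁ ℓ hℓ (AlgebraicClosure ℚ)

/-- `Φ_ℓ(j ; j(q^ℓ)) = 0` in `F_{Nℓ}`. -/
theorem h3k_rel₂ (hℓ : ℓ.Prime) :
    ev2 (h2kronPhi ℓ hℓ) (heckeAlphaBar (AlgebraicClosure ℚ) N ℓ (jL N))
      (heckeBetaBar (AlgebraicClosure ℚ) N ℓ (jL N)) = 0 := by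
  apply Subtype.val_injective
  rw [h3k_ev2_coe, h3k_coe_beta_jL, h3k_coe_alpha_jL]
  exact h2kronPhi_rel₂ ℓ hℓ (AlgebraicClosure ℚ)

/-- Reduction of a zero of `Φ_ℓ` with coordinates in `A`. -/
theorem h3k_res (hℓ : ℓ.Prime) (A : ValuationSubring (AlgebraicClosure ℚ))
    (hA : A.LiesOverPrime ℓ) (a b : AlgebraicClosure ℚ) (ha : a ∈ A) (hb : b ∈ A)
    (h : ev2 (h2kronPhi ℓ hℓ) a b = 0) :
    res A a ha = res A b hb ^ ℓ ∨ res A a ha ^ ℓ = res A b hb := by
  haveI : CharP (IsLocalRing.ResidueField A) ℓ :=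
    Fermat.Agent.S18x.Dict.H23.h23_charP_residueField' hℓ A hA
  have h0 : ev2 (h2kronPhi ℓ hℓ) (⟨a, ha⟩ : A) ⟨b, hb⟩ = 0 := by
    apply Subtype.val_injective
    rw [h3k_ev2_subtype]
    exact h
  exact h2kronPhi_red ℓ hℓ (IsLocalRing.residue A) (CharP.cast_eq_zero _ ℓ) _ _ h0

/-- **[KRON]**, place form: Kronecker's congruence for the `j`-values at a place of
`F_{Nℓ}`. -/
theorem stKron (hℓ : ℓ.Prime) (A : ValuationSubring (AlgebraicClosure ℚ))
    (hA : A.LiesOverPrime ℓ) : Asm.StKron N ℓ A := by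
  intro W
  have hΦ := h2kronPhi_monic ℓ hℓ
  constructor
  · intro b hb hW
    rw [h3k_beta_sub] at hW
    have hJ' : heckeBetaBar (AlgebraicClosure ℚ) N ℓ (jL N) ∈ W.toValuationSubring :=
      h3k_mem_of_val W _ b hW
    have hJ : heckeAlphaBar (AlgebraicClosure ℚ) N ℓ (jL N) ∈ W.toValuationSubring :=
      h3k_mem_of_ev2 _ _ hΦ _ _ hJ' (h3k_rel₂ N ℓ hℓ)
    rw [h3k_alpha_jL] at hJ
    obtain ⟨a, ha⟩ := Fermat.Agent.S37x.Move.H17.h17_hval (N * ℓ) W
      ((Fermat.Agent.S24.RH.ord_nonneg_iff W).mpr hJ)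
    have ha' : 0 < W.ord (heckeAlphaBar (AlgebraicClosure ℚ) N ℓ (jL N) -
        algebraMap (AlgebraicClosure ℚ) (modularFunctionFieldBar (N * ℓ)) a) := by
      rw [h3k_alpha_jL]
      exact ha
    have hab := h3k_ev2_val W _ _ _ a b (h3k_rel₂ N ℓ hℓ) ha' hW
    have haA : a ∈ A := h3k_mem_of_ev2 A _ hΦ a b hb hab
    refine ⟨a, haA, ?_, ?_⟩
    · rw [h3k_alpha_sub]
      exact ha'
    · exact (h3k_res ℓ hℓ A hA a b haA hb hab).symm
  · intro hcusp
    by_contra hne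
    rw [not_or, not_lt, not_exists] at hne
    obtain ⟨hJ0, hJA⟩ := hne
    have hJ : heckeAlphaBar (AlgebraicClosure ℚ) N ℓ (jL N) ∈ W.toValuationSubring :=
      (Fermat.Agent.S24.RH.ord_nonneg_iff W).mp hJ0
    have hJ0' := hJ0
    rw [h3k_alpha_jL] at hJ0'
    obtain ⟨a, ha⟩ := Fermat.Agent.S37x.Move.H17.h17_hval (N * ℓ) W hJ0'
    have ha' : 0 < W.ord (heckeAlphaBar (AlgebraicClosure ℚ) N ℓ (jL N) -
        algebraMap (AlgebraicClosure ℚ) (modularFunctionFieldBar (N * ℓ)) a) := by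
      rw [h3k_alpha_jL]
      exact ha
    have haA : a ∈ A := by
      by_contra haA
      refine hJA a ⟨haA, ?_⟩
      rw [h3k_alpha_sub]
      exact ha'
    have hJ' : heckeBetaBar (AlgebraicClosure ℚ) N ℓ (jL N) ∈ W.toValuationSubring :=
      h3k_mem_of_ev2 _ _ hΦ _ _ hJ (h3k_rel₁ N ℓ hℓ)
    rcases hcusp with hpole | ⟨b, hbA, hb⟩
    · have := (Fermat.Agent.S24.RH.ord_nonneg_iff W).mpr hJ'
      omega
    · rw [h3k_beta_sub] at hb
      have hba := h3k_ev2_val W _ _ _ b a (h3k_rel₁ N ℓ hℓ) hb ha'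
      exact hbA (h3k_mem_of_ev2 A _ hΦ b a haA hba)

end Level

end Fermat.Agent.S37x.Kron.H3
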